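/-
Cluster J (S59), leaf (BASE), part 1 (helper85): the eigencharacter of a normalised eigenform.

A normalised eigenform `g` (Prelude sense) is an eigenvector of every element of the Hecke algebra
`heckeAlgebra N 2 S` (generated by the `T_ℓ`, `ℓ ∤ N`, and the `U_q`, `q ∣ N`, away from `S`);
`baseEigenChar hg S : heckeAlgebra N 2 S →+* ℂ` is the character of eigenvalues, and
`baseEigenChar hg S (T_ℓ) = a_ℓ(g)`.
-/
import Fermat.Agent.F3.EigenChar.Eigenform
import Fermat.Prelude.Def_CuspForm_HeckeAlgebra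

set_option autoImplicit false

noncomputable section

namespace Fermat.Agent.S59

open CongruenceSubgroup ModularFormClass UpperHalfPlane Fermat.Agent.S49.Forms CuspForm

variable {N : ℕ}

/-- `a_{n q} = a_q a_n` for a normalised eigenform and a prime `q ∣ N`. -/
theorem base_qCoeff_mul_prime_dvd {g : CuspForm (Gamma0 N) 2} (hg : g.IsNormalizedEigenform)
    {q : ℕ} (hq : q.Prime) (hqN : q ∣ N) (n : ℕ) :
    qCoeff ⇑g (n * q) = qCoeff ⇑g q * qCoeff ⇑g n := by
  rcases Nat.eq_zero_or_pos n with rfl | hn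
  · simp [qc_zero_index]
  obtain ⟨r, m, hm, rfl⟩ := Nat.exists_eq_pow_mul_and_not_dvd hn.ne' q hq.ne_one
  have hcop : ∀ s : ℕ, Nat.Coprime (q ^ s) m := fun s =>
    Nat.Coprime.pow_left s ((Nat.Prime.coprime_iff_not_dvd hq).mpr hm)
  have hpow : ∀ s : ℕ, qCoeff ⇑g (q ^ (s + 1)) = qCoeff ⇑g q * qCoeff ⇑g (q ^ s) := by
    intro s
    rcases s with _ | s
    · rw [pow_zero, zero_add, pow_one, hg.qCoeff_one, mul_one]
    · exact hg.qCoeff_prime_pow_of_dvd q s hq hqN
  have h1 : q ^ r * m * q = q ^ (r + 1) * m := by ring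
  rw [h1, hg.qCoeff_mul_of_coprime _ _ (hcop (r + 1)), hg.qCoeff_mul_of_coprime _ _ (hcop r),
    hpow r]
  ring

/-- A normalised eigenform is an eigenvector of `U_q` (`q ∣ N`) with eigenvalue `a_q`. -/
theorem base_heckeULin_eq_smul [NeZero N] {g : CuspForm (Gamma0 N) 2}
    (hg : g.IsNormalizedEigenform) {q : ℕ} (hq : q.Prime) (hqN : q ∣ N) :
    CuspForm.heckeULin 2 hqN g = qCoeff ⇑g q • g := by
  apply qLin_injective N
  funext n
  rw [qLin_apply, qLin_apply, qc_heckeU hq, qc_smul]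
  exact base_qCoeff_mul_prime_dvd hg hq hqN n

/-- Every element of the Hecke algebra has the normalised eigenform `g` as an eigenvector. -/
theorem base_exists_eigenvalue [NeZero N] {g : CuspForm (Gamma0 N) 2}
    (hg : g.IsNormalizedEigenform) (S : Set ℕ)
    (t : Module.End ℂ (CuspForm (Gamma0 N) 2)) (ht : t ∈ heckeAlgebra N 2 S) :
    ∃ c : ℂ, t g = c • g := by
  refine Algebra.adjoin_induction (p := fun t _ => ∃ c : ℂ, t g = c • g) ?_ ?_ ?_ ?_ ht
  · rintro t (⟨ℓ, hℓ, hℓN, -, rfl⟩ | ⟨q, hqN, hq, -, rfl⟩)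
    · exact ⟨_, Fermat.Agent.F3EC.heckeTLin_eq_smul hg hℓ hℓN⟩
    · exact ⟨_, base_heckeULin_eq_smul hg hq hqN⟩
  · intro r
    refine ⟨(r : ℂ), ?_⟩
    rw [Algebra.algebraMap_eq_smul_one, LinearMap.smul_apply, Module.End.one_apply]
    exact (Int.cast_smul_eq_zsmul ℂ r g).symm
  · rintro a b _ _ ⟨ca, ha⟩ ⟨cb, hb⟩
    exact ⟨ca + cb, by rw [LinearMap.add_apply, ha, hb, add_smul]⟩
  · rintro a b _ _ ⟨ca, ha⟩ ⟨cb, hb⟩
    exact ⟨ca * cb, by rw [Module.End.mul_apply, hb, map_smul, ha, smul_smul, mul_comm]⟩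

/-- The value of the eigencharacter: the first `q`-coefficient of `t g`. -/
theorem base_apply_eq_smul [NeZero N] {g : CuspForm (Gamma0 N) 2}
    (hg : g.IsNormalizedEigenform) (S : Set ℕ) (t : heckeAlgebra N 2 S) :
    (t : Module.End ℂ (CuspForm (Gamma0 N) 2)) g =
      qCoeff ⇑((t : Module.End ℂ (CuspForm (Gamma0 N) 2)) g) 1 • g := by
  obtain ⟨c, hc⟩ := base_exists_eigenvalue hg S t t.2
  rw [hc, qc_smul, hg.qCoeff_one, mul_one]

theorem base_smul_left_injective [NeZero N] {g : CuspForm (Gamma0 N) 2}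
    (hg : g.IsNormalizedEigenform) {c d : ℂ} (h : c • g = d • g) : c = d := by
  have h1 := congrArg (fun f : CuspForm (Gamma0 N) 2 => qCoeff ⇑f 1) h
  simp only [qc_smul, hg.qCoeff_one, mul_one] at h1
  exact h1

/-- The eigencharacter of a normalised eigenform. -/
def baseEigenChar [NeZero N] {g : CuspForm (Gamma0 N) 2} (hg : g.IsNormalizedEigenform)
    (S : Set ℕ) : heckeAlgebra N 2 S →+* ℂ where
  toFun t := qCoeff ⇑((t : Module.End ℂ (CuspForm (Gamma0 N) 2)) g) 1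
  map_one' := by
    show qCoeff ⇑(((1 : heckeAlgebra N 2 S) : Module.End ℂ (CuspForm (Gamma0 N) 2)) g) 1 = 1
    rw [OneMemClass.coe_one, Module.End.one_apply, hg.qCoeff_one]
  map_mul' a b := by
    apply base_smul_left_injective hg
    rw [← base_apply_eq_smul hg S (a * b), MulMemClass.coe_mul, Module.End.mul_apply,
      base_apply_eq_smul hg S b, map_smul, base_apply_eq_smul hg S a, smul_smul, mul_comm,
      qc_smul, qc_smul, hg.qCoeff_one, mul_one, mul_one]
  map_zero' := by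
    show qCoeff ⇑(((0 : heckeAlgebra N 2 S) : Module.End ℂ (CuspForm (Gamma0 N) 2)) g) 1 = 0
    rw [ZeroMemClass.coe_zero, LinearMap.zero_apply, qc_zero_form]
  map_add' a b := by
    show qCoeff ⇑(((a + b : heckeAlgebra N 2 S) : Module.End ℂ (CuspForm (Gamma0 N) 2)) g) 1 = _
    rw [AddMemClass.coe_add, LinearMap.add_apply, qc_add]

theorem baseEigenChar_apply [NeZero N] {g : CuspForm (Gamma0 N) 2}
    (hg : g.IsNormalizedEigenform) (S : Set ℕ) (t : heckeAlgebra N 2 S) :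
    baseEigenChar hg S t = qCoeff ⇑((t : Module.End ℂ (CuspForm (Gamma0 N) 2)) g) 1 := rfl

theorem baseEigenChar_T [NeZero N] {g : CuspForm (Gamma0 N) 2} (hg : g.IsNormalizedEigenform)
    (S : Set ℕ) {ℓ : ℕ} (hℓ : ℓ.Prime) (hℓN : ¬ ℓ ∣ N) (hℓS : ℓ ∉ S) :
    baseEigenChar hg S (heckeAlgebra.T hℓ hℓN hℓS) = qCoeff ⇑g ℓ := by
  rw [baseEigenChar_apply, heckeAlgebra.coe_T, Fermat.Agent.F3EC.heckeTLin_eq_smul hg hℓ hℓN,
    qc_smul, hg.qCoeff_one, mul_one]

end Fermat.Agent.S59
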