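/-
Cluster J (S59), leaf (BASE), part 2 (helper85): the coefficient field.

`baseField p G` : the number field generated inside `ℂ` by a finite set `G` of algebraic integers
and by one root of each polynomial `X² - m X + m'`, `0 ≤ m, m' < p`.
-/
import Mathlib

set_option autoImplicit false

noncomputable section

namespace Fermat.Agent.S59

open Polynomial NumberField

theorem base_exists_root (m m' : ℕ) : ∃ α : ℂ, α ^ 2 - (m : ℂ) * α + (m' : ℂ) = 0 := by
  have hdeg : (X ^ 2 - C (m : ℂ) * X + C (m' : ℂ) : ℂ[X]).degree ≠ 0 := by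
    have h : (X ^ 2 - C (m : ℂ) * X + C (m' : ℂ) : ℂ[X]).degree = 2 := by
      compute_degree!
    rw [h]; norm_num
  obtain ⟨α, hα⟩ := IsAlgClosed.exists_root _ hdeg
  refine ⟨α, ?_⟩
  simpa using hα

/-- A root of `X² - m X + m'` in `ℂ`. -/
def baseRoot (m m' : ℕ) : ℂ := (base_exists_root m m').choose

theorem baseRoot_spec (m m' : ℕ) :
    baseRoot m m' ^ 2 - (m : ℂ) * baseRoot m m' + (m' : ℂ) = 0 :=
  (base_exists_root m m').choose_spec

theorem isIntegral_baseRoot (m m' : ℕ) : IsIntegral ℤ (baseRoot m m') := by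
  refine ⟨X ^ 2 - C (m : ℤ) * X + C (m' : ℤ), ?_, ?_⟩
  · monicity!
  · have := baseRoot_spec m m'
    simpa using this

/-- The set of the chosen roots. -/
def baseRootSet (p : ℕ) : Set ℂ := Set.range fun x : Fin p × Fin p => baseRoot x.1 x.2

theorem baseRoot_mem_baseRootSet {p m m' : ℕ} (hm : m < p) (hm' : m' < p) :
    baseRoot m m' ∈ baseRootSet p :=
  ⟨(⟨m, hm⟩, ⟨m', hm'⟩), rfl⟩

theorem finite_baseRootSet (p : ℕ) : (baseRootSet p).Finite := Set.finite_range _

/-- The coefficient field. -/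
def baseField (p : ℕ) (G : Set ℂ) : IntermediateField ℚ ℂ :=
  IntermediateField.adjoin ℚ (G ∪ baseRootSet p)

theorem subset_baseField (p : ℕ) (G : Set ℂ) : G ⊆ (baseField p G : Set ℂ) := fun _ hx =>
  IntermediateField.subset_adjoin ℚ _ (Or.inl hx)

theorem baseRoot_mem_baseField (p : ℕ) (G : Set ℂ) {m m' : ℕ} (hm : m < p) (hm' : m' < p) :
    baseRoot m m' ∈ baseField p G :=
  IntermediateField.subset_adjoin ℚ _ (Or.inr (baseRoot_mem_baseRootSet hm hm'))

theorem numberField_baseField (p : ℕ) {G : Set ℂ} (hG : G.Finite)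
    (hint : ∀ x ∈ G, IsIntegral ℤ x) : NumberField (baseField p G) := by
  have hfin : (G ∪ baseRootSet p).Finite := hG.union (finite_baseRootSet p)
  have : Finite ↥(G ∪ baseRootSet p) := hfin.to_subtype
  have hI : ∀ x ∈ G ∪ baseRootSet p, IsIntegral ℚ x := by
    rintro x (hx | ⟨⟨a, b⟩, rfl⟩)
    · exact (hint x hx).tower_top
    · exact (isIntegral_baseRoot _ _).tower_top
  have : FiniteDimensional ℚ (baseField p G) := IntermediateField.finiteDimensional_adjoin hI
  exact ⟨⟩

end Fermat.Agent.S59
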